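import Fermat.Agent.S55.G.Rec.Tow.Spec
import Fermat.Agent.S55.E1.H594.LevelUnram

/-!
# S55 / REC2-TOW, leaf GD1 (subtask 557, helper781): the assembly `gd1_of : Gd1AssemblySpec p`

Memo T6 of helper293 / `coord/S55-REC-TOW.md` §2 (GD1), steps 1–7:
an auxiliary prime `r ∉ S`, the level `M = F·L(r,k)` totally ramified above `r` with
`Gal(M/F)` of order `p^k = |P|` (`P` a Sylow `p`-subgroup of `Gal(F/ℚ)`), a local class `b` at `r`
of order `p^k`, `Y = j_* b`; `res_{Gal(M/F)} Y = 0` by reciprocity (T4'), so `Y = inf γ₀`;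
`γ = π_* γ₀` (independence of `S`) has `res_P γ` of order `p^k`.
-/

set_option autoImplicit false
set_option linter.style.haveILetI false

open CategoryTheory groupCohomology
open scoped NumberField

noncomputable section

namespace Fermat.Agent.S55.G.Rec.TOW.H781

open Fermat.Agent.S55 Fermat.Agent.S55.Tow Fermat.Agent.S55.E1.H594
open Fermat.Agent.S55.G.Rec.TOW
open IsDedekindDomain

variable {S : Finset Nat.Primes}

/-- The projection `Gal(F'/ℚ) → Gal(F/ℚ)` is surjective. -/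
theorem proj_surjective {L L' : Level S} (h : L ≤ L') : Function.Surjective (Level.proj h) := by
  intro g
  induction g using QuotientGroup.induction_on with
  | H g => exact ⟨QuotientGroup.mk g, rfl⟩

/-- `[Gal(F'/ℚ) : Gal(F'/F)] = |Gal(F/ℚ)|`. -/
theorem index_relGal {L L' : Level S} (h : L ≤ L') :
    (Level.relGal h).index = Nat.card L.Gal := by
  unfold Level.relGal
  rw [Subgroup.index_ker, MonoidHom.range_eq_top.2 (proj_surjective h)]
  exact Nat.card_congr (Subgroup.topEquiv).toEquiv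

theorem gd1_of (p : ℕ) : Gd1AssemblySpec p := by
  intro I hKer hTot hUp hDesc hSInd hRam hResTop hRCN hCM hLift hRMN hResIdx S hp hp2 hpS L hMu
  haveI : Fact p.Prime := ⟨hp⟩
  -- a Sylow `p`-subgroup of `Gal(F/ℚ)`
  obtain ⟨P⟩ : Nonempty (Sylow p L.Gal) := inferInstance
  have hPp : IsPGroup p (P : Subgroup L.Gal) := P.isPGroup'
  obtain ⟨k, hk⟩ := hPp.exists_card_eq
  have hPidx : ¬ p ∣ (P : Subgroup L.Gal).index := P.not_dvd_index
  -- Step 1: the auxiliary level
  obtain ⟨r, hrS, M, h, hZcard, hZfix⟩ := hRam hp S L k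
  have hSS' : S ⊆ insert r S := Finset.subset_insert r S
  have hpS' : (⟨p, hp⟩ : Nat.Primes) ∈ insert r S := hSS' hpS
  have hrS' : r ∈ insert r S := Finset.mem_insert_self r S
  have hS'ne : (insert r S).Nonempty := ⟨r, hrS'⟩
  have hMuM : M.HasMu p := by
    obtain ⟨ζ, hζ, hprim⟩ := hMu
    exact ⟨ζ, h hζ, hprim⟩
  have hZp : IsPGroup p (Level.relGal h) := IsPGroup.of_card hZcard
  -- Step 2: the local class at `r`
  obtain ⟨y, hy0, hyord⟩ := I.locClass M r hrS' ⊤ (Level.relGal h) le_top hZp hZfix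
  obtain ⟨b, rfl⟩ := (hResTop M.Gal (lvlJ M) 2).2 y
  rw [hZcard] at hy0 hyord
  have hb0 : (p ^ k) • b = 0 := by
    apply (hResTop M.Gal (lvlJ M) 2).1
    rw [map_nsmul, map_zero]
    exact hy0
  -- Step 3: `res_{Z'} Y = 0`
  have hdvd : p ^ k ∣ Nat.card L.Gal := hk ▸ Subgroup.card_subgroup_dvd_card (P : Subgroup L.Gal)
  have hσZ : I.σ M (Level.relGal h) (res2 (lvlJ M) (Level.relGal h) b) = 0 := by
    rw [I.resIndex, index_relGal h]
    obtain ⟨c, hc⟩ := hdvd
    have hL : Nat.card (Level.ofLE hSS' L).Gal = Nat.card L.Gal := rfl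
    have h0 : (p ^ k) • I.σ M ⊤ (res2 (lvlJ M) ⊤ b) = 0 := by
      rw [← map_nsmul]
      exact (congrArg (I.σ M ⊤) hy0).trans (map_zero _)
    rw [hL, hc, mul_comm, mul_smul, h0, smul_zero]
  have hresY : res2 (lvlC M) (Level.relGal h) (h2Top (lvlj M) b) = 0 := by
    rw [← hRCN]
    exact (hTot (insert r S) hp hp2 hpS' M hMuM r hrS' (Level.relGal h) hZp hZfix).1 _ hσZ
  -- Step 4: `Y = inf γ₀`
  have hH1 : Limits.IsZero (groupCohomology (T.resSub (lvlC M) (Level.proj h).ker) 1) :=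
    (hUp (insert r S) hp hp2 hpS' M hMuM (Level.relGal h) hZp).1
  obtain ⟨ι, hι⟩ := hDesc (insert r S) hS'ne (Level.ofLE hSS' L) M h
  obtain ⟨γ₀, hγ₀⟩ := hLift M.Gal (Level.ofLE hSS' L).Gal (Level.proj h) (proj_surjective h)
    (lvlC (Level.ofLE hSS' L)) (lvlC M) ι hι hH1 (h2Top (lvlj M) b) hresY
  -- Step 5: independence of `S`
  obtain ⟨Φ, π, -, -, -, -, -, -, hπ⟩ := hSInd S (insert r S) hSS' L.Gal L.F ⟨_, hpS⟩
    (level_isUnramOut L)
  refine ⟨h2Top π γ₀, ?_⟩
  -- Step 7: class module from the Sylow subgroup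
  apply hCM p hp L.Gal (lvlC L) (h2Top π γ₀) P hPp hPidx
    (fun H hH => hUp S hp hp2 hpS L hMu H hH)
  -- Step 6: `res_P γ` has order `p^k`
  intro n hn
  have h1 : h2Sub π (P : Subgroup L.Gal) (res2 (lvlC' (insert r S) L) (P : Subgroup L.Gal) γ₀) =
      res2 (lvlC L) (P : Subgroup L.Gal) (h2Top π γ₀) := hRCN L.Gal _ _ π (P : Subgroup L.Gal) γ₀
  have h2 : n • res2 (lvlC' (insert r S) L) (P : Subgroup L.Gal) γ₀ = 0 := by
    apply (hπ (P : Subgroup L.Gal) 2 (by norm_num)).1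
    rw [map_nsmul, map_zero]
    exact (congrArg (fun z => n • z) h1).trans hn
  have h3 : res2 (lvlC (Level.ofLE hSS' L)) (P : Subgroup L.Gal) (n • γ₀) = 0 := by
    rw [map_nsmul]
    exact h2
  have h4 := hRMN M.Gal (Level.ofLE hSS' L).Gal (Level.proj h) (lvlC (Level.ofLE hSS' L))
    (lvlC M) ι (P : Subgroup L.Gal) (n • γ₀) h3
  rw [map_nsmul, hγ₀] at h4
  have h5 := hResIdx ℤ M.Gal (lvlC M) (Subgroup.comap (Level.proj h) (P : Subgroup L.Gal)) 2
    (by norm_num) _ h4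
  have hidxP : (Subgroup.comap (Level.proj h) (P : Subgroup L.Gal)).index =
      (P : Subgroup L.Gal).index :=
    Subgroup.index_comap_of_surjective (G := (Level.ofLE hSS' L).Gal) (P : Subgroup L.Gal)
      (proj_surjective h)
  rw [hidxP] at h5
  have h6 : h2Top (lvlj M) (((P : Subgroup L.Gal).index * n) • b) = 0 := by
    rw [map_nsmul, mul_smul]
    exact h5
  have h7 : I.σ M ⊤ (res2 (lvlJ M) ⊤ (((P : Subgroup L.Gal).index * n) • b)) = 0 := by
    apply hKer (insert r S) hS'ne M ⊤ _ ⟨k, ?_⟩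
    · rw [hRCN, h6, map_zero]
    · rw [← map_nsmul, smul_comm, hb0, smul_zero, map_zero]
  have h8 : p ^ k ∣ (P : Subgroup L.Gal).index * n := by
    apply hyord
    rw [← map_nsmul, ← map_nsmul]
    exact h7
  rw [hk]
  exact (Nat.Coprime.pow_left k
    ((Nat.Prime.coprime_iff_not_dvd hp).2 hPidx)).dvd_of_dvd_mul_left h8

end Fermat.Agent.S55.G.Rec.TOW.H781
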